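import Mathlib

/-!
# Shapiro's lemma on low-degree inhomogeneous cochains (explicit form)

`U ≤ G` a subgroup, `A : Rep k U`, `C = Rep.coind U.subtype A` the coinduced module
(`U`-equivariant functions `φ : G → A`, `φ (u * x) = u • φ x`, with `G` acting by right
translation).

* `sh₀ … sh₃`: evaluation at `1`, `Cⁿ(G, C) → Cⁿ(U, A)`,
  `sh f (u₁, …, uₙ) = f (u₁, …, uₙ) 1`.  Chain maps (`sh₁_d₀₁`, `sh₂_d₁₂`, `sh₃_d₂₃`).
* `Sec U`: a `U`-equivariant retraction `r : G → U` (i.e. a right transversal through `1`).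
* `j₀ … j₃`: the explicit quasi-inverse
  `j h (g₁, …, gₙ) x = r x • h (ρ(x, g₁), ρ(x g₁, g₂), …)`, `ρ(x, g) = (r x)⁻¹ r (x g)`.
  Chain maps (`j₁_d₀₁`, `j₂_d₁₂`, `j₃_d₂₃`) and `sh ∘ j = id`.
* `hot₁`, `hot₂`: the prism homotopy; `eq_j₁_add` / `eq_j₂_add`: every cocycle `f` of degree `1` or `2`
  of `G` in `C` is `j (sh f) + d (hot f)`.

Everything is at the level of functions (`G → M`, `G × G → M`, `G × G × G → M`), matching
Mathlib's `groupCohomology.d₀₁`, `d₁₂`, `d₂₃`.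
-/

set_option autoImplicit false

open groupCohomology

namespace Fermat.Agent.CFT.Shapiro

universe u

variable {k G : Type u} [CommRing k] [Group G]

/-- A `U`-equivariant retraction `G → U`; equivalently a right transversal of `U` in `G`
containing `1`. -/
structure Sec (U : Subgroup G) where
  /-- the retraction -/
  r : G → U
  map_mul' : ∀ (u : U) (g : G), r ((u : G) * g) = u * r g
  map_one' : r 1 = 1

namespace Sec

variable {U : Subgroup G} (s : Sec U)

@[simp] lemma r_mul (u : U) (g : G) : s.r ((u : G) * g) = u * s.r g := s.map_mul' u g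

@[simp] lemma r_one : s.r 1 = 1 := s.map_one'

@[simp] lemma r_coe (u : U) : s.r (u : G) = u := by
  have h := s.map_mul' u 1
  rwa [mul_one, s.map_one', mul_one] at h

/-- The transversal element of `g`: `g = r g * t g`. -/
def t (g : G) : G := ((s.r g : U) : G)⁻¹ * g

lemma r_mul_t (g : G) : ((s.r g : U) : G) * s.t g = g := by simp [t]

@[simp] lemma t_mul (u : U) (g : G) : s.t ((u : G) * g) = s.t g := by
  simp [t, mul_assoc]

@[simp] lemma t_coe (u : U) : s.t (u : G) = 1 := by simp [t]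

@[simp] lemma t_one : s.t 1 = 1 := by simp [t]

@[simp] lemma r_t (g : G) : s.r (s.t g) = 1 := by
  have h := s.map_mul' (s.r g)⁻¹ g
  rw [Subgroup.coe_inv] at h
  rw [t, h, inv_mul_cancel]

@[simp] lemma t_t (g : G) : s.t (s.t g) = s.t g := by
  conv_lhs => rw [t, r_t]
  simp

/-- `ρ(x, g) = (r x)⁻¹ * r (x * g)`. -/
def rho (x g : G) : U := (s.r x)⁻¹ * s.r (x * g)

lemma rho_mul (x g h : G) : s.rho x (g * h) = s.rho x g * s.rho (x * g) h := by
  simp [rho, mul_assoc]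

@[simp] lemma rho_one (x : G) : s.rho x 1 = 1 := by simp [rho]

@[simp] lemma rho_smul (u : U) (x g : G) : s.rho ((u : G) * x) g = s.rho x g := by
  simp [rho, mul_assoc]

@[simp] lemma rho_coe (u u' : U) : s.rho (u : G) (u' : G) = u' := by
  have : s.r ((u : G) * (u' : G)) = u * u' := by
    rw [s.r_mul, s.r_coe]
  simp [rho, this]

@[simp] lemma rho_one_coe (u : U) : s.rho 1 (u : G) = u := by
  simp [rho]

lemma r_mul_rho (x g : G) : s.r x * s.rho x g = s.r (x * g) := by simp [rho]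

lemma coe_r_mul_rho (x g : G) : ((s.r x : U) : G) * ((s.rho x g : U) : G) = s.r (x * g) := by
  rw [← Subgroup.coe_mul, r_mul_rho]

lemma rho_mul_t (x g : G) : ((s.rho x g : U) : G) * s.t (x * g) = s.t x * g := by
  simp [rho, t, mul_assoc]

/-- Every subgroup has a section. -/
theorem nonempty (U : Subgroup G) : Nonempty (Sec U) := by
  obtain ⟨T, hT, h1⟩ := U.exists_isComplement_right 1
  refine ⟨⟨fun g => (hT.equiv g).1, fun u g => ?_, ?_⟩⟩
  · rw [hT.equiv_mul_left]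
  · have := hT.equiv_one U.one_mem h1
    rw [this]; rfl

end Sec

variable {U : Subgroup G} (A : Rep.{u} k U)

/-- The coinduced module. -/
noncomputable abbrev coindRep (A : Rep.{u} k U) : Rep.{u} k G := Rep.coind U.subtype A

/-! ### Pointwise access to the coinduced module

All of these are `rfl`; use them with `rw` (not `simp`: the carrier of `Rep.coind` is
`(Rep.of _).V`, which does not index well). -/

lemma coind_apply_mul (φ : coindRep A) (u : U) (x : G) : φ.1 ((u : G) * x) = A.ρ u (φ.1 x) :=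
  φ.2 u x

lemma coind_apply_coe (φ : coindRep A) (u : U) : φ.1 (u : G) = A.ρ u (φ.1 1) := by
  have h := φ.2 u 1
  rwa [Subgroup.subtype_apply, mul_one] at h

lemma coind_ρ_apply (g : G) (φ : coindRep A) (x : G) :
    ((coindRep A).ρ g φ).1 x = φ.1 (x * g) := rfl

lemma coind_ext {φ ψ : coindRep A} (h : ∀ x, φ.1 x = ψ.1 x) : φ = ψ :=
  Subtype.ext (funext h)

lemma coind_add_apply (φ ψ : coindRep A) (x : G) : (φ + ψ).1 x = φ.1 x + ψ.1 x := rfl

lemma coind_sub_apply (φ ψ : coindRep A) (x : G) : (φ - ψ).1 x = φ.1 x - ψ.1 x := rfl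

lemma coind_smul_apply (c : k) (φ : coindRep A) (x : G) : (c • φ).1 x = c • φ.1 x := rfl

lemma coind_zero_apply (x : G) : (0 : coindRep A).1 x = 0 := rfl

/-- Constructor for elements of the coinduced module. -/
def mkCoind (φ : G → A) (h : ∀ (u : U) (x : G), φ ((u : G) * x) = A.ρ u (φ x)) : coindRep A :=
  ⟨φ, h⟩

lemma mkCoind_apply (φ : G → A) (h) (x : G) : (mkCoind A φ h).1 x = φ x := rfl

lemma d₀₁_coind_apply (m : coindRep A) (g x : G) :
    ((d₀₁.{u, u} (coindRep A)).hom m g).1 x = m.1 (x * g) - m.1 x := rfl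

lemma d₁₂_coind_apply (f : G → coindRep A) (g h x : G) :
    ((d₁₂ (coindRep A)).hom f (g, h)).1 x = (f h).1 (x * g) - (f (g * h)).1 x + (f g).1 x := rfl

lemma d₂₃_coind_apply (f : G × G → coindRep A) (g h j x : G) :
    ((d₂₃ (coindRep A)).hom f (g, h, j)).1 x =
      (f (h, j)).1 (x * g) - (f (g * h, j)).1 x + (f (g, h * j)).1 x - (f (g, h)).1 x := rfl

/-! ### The maps `sh` -/

/-- Evaluation at `1` in degree `0`. -/
def sh₀ : coindRep A →ₗ[k] A where
  toFun m := m.1 1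
  map_add' _ _ := rfl
  map_smul' _ _ := rfl

/-- Evaluation at `1` in degree `1`. -/
def sh₁ : (G → coindRep A) →ₗ[k] (U → A) where
  toFun f u := (f u).1 1
  map_add' _ _ := rfl
  map_smul' _ _ := rfl

/-- Evaluation at `1` in degree `2`. -/
def sh₂ : (G × G → coindRep A) →ₗ[k] (U × U → A) where
  toFun f p := (f (p.1, p.2)).1 1
  map_add' _ _ := rfl
  map_smul' _ _ := rfl

/-- Evaluation at `1` in degree `3`. -/
def sh₃ : (G × G × G → coindRep A) →ₗ[k] (U × U × U → A) where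
  toFun f p := (f (p.1, p.2.1, p.2.2)).1 1
  map_add' _ _ := rfl
  map_smul' _ _ := rfl

@[simp] lemma sh₀_apply (m : coindRep A) : sh₀ A m = m.1 1 := rfl

@[simp] lemma sh₁_apply (f : G → coindRep A) (u : U) : sh₁ A f u = (f u).1 1 := rfl

@[simp] lemma sh₂_apply (f : G × G → coindRep A) (p : U × U) :
    sh₂ A f p = (f (p.1, p.2)).1 1 := rfl

@[simp] lemma sh₃_apply (f : G × G × G → coindRep A) (p : U × U × U) :
    sh₃ A f p = (f (p.1, p.2.1, p.2.2)).1 1 := rfl

lemma sh₁_d₀₁ (m : coindRep A) :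
    sh₁ A ((d₀₁.{u, u} (coindRep A)).hom m) = (d₀₁.{u, u} A).hom (sh₀ A m) := by
  refine funext fun u => ?_
  show m.1 (1 * (u : G)) - m.1 1 = A.ρ u (m.1 1) - m.1 1
  rw [one_mul, coind_apply_coe]

lemma sh₂_d₁₂ (f : G → coindRep A) :
    sh₂ A ((d₁₂ (coindRep A)).hom f) = (d₁₂ A).hom (sh₁ A f) := by
  refine funext fun ⟨u, v⟩ => ?_
  show (f v).1 (1 * (u : G)) - (f ((u : G) * v)).1 1 + (f u).1 1 =
    A.ρ u ((f v).1 1) - (f ((u * v : U) : G)).1 1 + (f u).1 1
  rw [one_mul, coind_apply_coe, Subgroup.coe_mul]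

lemma sh₃_d₂₃ (f : G × G → coindRep A) :
    sh₃ A ((d₂₃ (coindRep A)).hom f) = (d₂₃ A).hom (sh₂ A f) := by
  refine funext fun ⟨u, v, w⟩ => ?_
  show (f (v, w)).1 (1 * (u : G)) - (f ((u : G) * v, w)).1 1 + (f (u, (v : G) * w)).1 1
      - (f (u, v)).1 1 =
    A.ρ u ((f (v, w)).1 1) - (f (((u * v : U) : G), w)).1 1 + (f (u, ((v * w : U) : G))).1 1
      - (f (u, v)).1 1
  rw [one_mul, coind_apply_coe, Subgroup.coe_mul, Subgroup.coe_mul]

lemma sh₁_mem_cocycles₁ {f : G → coindRep A} (hf : f ∈ cocycles₁ (coindRep A)) :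
    sh₁ A f ∈ cocycles₁ A := by
  have hf' : (d₁₂ (coindRep A)).hom f = 0 := LinearMap.mem_ker.1 hf
  show (d₁₂ A).hom (sh₁ A f) = 0
  rw [← sh₂_d₁₂, hf', map_zero]

lemma sh₂_mem_cocycles₂ {f : G × G → coindRep A} (hf : f ∈ cocycles₂ (coindRep A)) :
    sh₂ A f ∈ cocycles₂ A := by
  have hf' : (d₂₃ (coindRep A)).hom f = 0 := LinearMap.mem_ker.1 hf
  show (d₂₃ A).hom (sh₂ A f) = 0
  rw [← sh₃_d₂₃, hf', map_zero]

/-! ### The maps `j` -/

variable (s : Sec U)

/-- The quasi-inverse of `sh₀`. -/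
def j₀ : A →ₗ[k] coindRep A where
  toFun a := mkCoind A (fun x => A.ρ (s.r x) a) (fun u x => by simp)
  map_add' a b := coind_ext A fun x => map_add (A.ρ (s.r x)) a b
  map_smul' c a := coind_ext A fun x => map_smul (A.ρ (s.r x)) c a

/-- The quasi-inverse of `sh₁`. -/
def j₁ : (U → A) →ₗ[k] (G → coindRep A) where
  toFun h g := mkCoind A (fun x => A.ρ (s.r x) (h (s.rho x g))) (fun u x => by simp)
  map_add' a b := funext fun _ => coind_ext A fun x => map_add (A.ρ (s.r x)) _ _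
  map_smul' c a := funext fun _ => coind_ext A fun x => map_smul (A.ρ (s.r x)) c _

/-- The quasi-inverse of `sh₂`. -/
def j₂ : (U × U → A) →ₗ[k] (G × G → coindRep A) where
  toFun h p := mkCoind A (fun x => A.ρ (s.r x) (h (s.rho x p.1, s.rho (x * p.1) p.2)))
    (fun u x => by simp [mul_assoc])
  map_add' a b := funext fun _ => coind_ext A fun x => map_add (A.ρ (s.r x)) _ _
  map_smul' c a := funext fun _ => coind_ext A fun x => map_smul (A.ρ (s.r x)) c _

/-- The quasi-inverse of `sh₃`. -/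
def j₃ : (U × U × U → A) →ₗ[k] (G × G × G → coindRep A) where
  toFun h p := mkCoind A (fun x => A.ρ (s.r x)
      (h (s.rho x p.1, s.rho (x * p.1) p.2.1, s.rho (x * p.1 * p.2.1) p.2.2)))
    (fun u x => by simp [mul_assoc])
  map_add' a b := funext fun _ => coind_ext A fun x => map_add (A.ρ (s.r x)) _ _
  map_smul' c a := funext fun _ => coind_ext A fun x => map_smul (A.ρ (s.r x)) c _

lemma j₀_apply (a : A) (x : G) : (j₀ A s a).1 x = A.ρ (s.r x) a := rfl

lemma j₁_apply (h : U → A) (g x : G) :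
    (j₁ A s h g).1 x = A.ρ (s.r x) (h (s.rho x g)) := rfl

lemma j₂_apply (h : U × U → A) (p : G × G) (x : G) :
    (j₂ A s h p).1 x = A.ρ (s.r x) (h (s.rho x p.1, s.rho (x * p.1) p.2)) := rfl

lemma j₃_apply (h : U × U × U → A) (p : G × G × G) (x : G) :
    (j₃ A s h p).1 x = A.ρ (s.r x)
      (h (s.rho x p.1, s.rho (x * p.1) p.2.1, s.rho (x * p.1 * p.2.1) p.2.2)) := rfl

@[simp] lemma sh₀_j₀ (a : A) : sh₀ A (j₀ A s a) = a := by
  show A.ρ (s.r 1) a = a
  simp

@[simp] lemma sh₁_j₁ (h : U → A) : sh₁ A (j₁ A s h) = h := by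
  refine funext fun u => ?_
  show A.ρ (s.r 1) (h (s.rho 1 (u : G))) = h u
  simp

@[simp] lemma sh₂_j₂ (h : U × U → A) : sh₂ A (j₂ A s h) = h := by
  refine funext fun ⟨u, v⟩ => ?_
  show A.ρ (s.r 1) (h (s.rho 1 (u : G), s.rho (1 * (u : G)) (v : G))) = h (u, v)
  simp

@[simp] lemma sh₃_j₃ (h : U × U × U → A) : sh₃ A (j₃ A s h) = h := by
  refine funext fun ⟨u, v, w⟩ => ?_
  show A.ρ (s.r 1) (h (s.rho 1 (u : G), s.rho (1 * (u : G)) (v : G),
    s.rho (1 * (u : G) * (v : G)) (w : G))) = h (u, v, w)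
  have e : ((u : G) * (v : G)) = ((u * v : U) : G) := rfl
  rw [one_mul, e, s.rho_coe, s.rho_coe, s.rho_one_coe, s.r_one, map_one, Module.End.one_apply]

lemma j₁_d₀₁ (a : A) :
    j₁ A s ((d₀₁.{u, u} A).hom a) = (d₀₁.{u, u} (coindRep A)).hom (j₀ A s a) := by
  refine funext fun g => coind_ext A fun x => ?_
  show A.ρ (s.r x) (A.ρ (s.rho x g) a - a) = A.ρ (s.r (x * g)) a - A.ρ (s.r x) a
  simp [← Module.End.mul_apply, ← map_mul, Sec.r_mul_rho]

lemma j₂_d₁₂ (h : U → A) :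
    j₂ A s ((d₁₂ A).hom h) = (d₁₂ (coindRep A)).hom (j₁ A s h) := by
  refine funext fun ⟨g₁, g₂⟩ => coind_ext A fun x => ?_
  show A.ρ (s.r x) (A.ρ (s.rho x g₁) (h (s.rho (x * g₁) g₂))
      - h (s.rho x g₁ * s.rho (x * g₁) g₂) + h (s.rho x g₁)) =
    A.ρ (s.r (x * g₁)) (h (s.rho (x * g₁) g₂)) - A.ρ (s.r x) (h (s.rho x (g₁ * g₂)))
      + A.ρ (s.r x) (h (s.rho x g₁))
  simp [← Module.End.mul_apply, ← map_mul, Sec.r_mul_rho, Sec.rho_mul]

lemma j₃_d₂₃ (h : U × U → A) :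
    j₃ A s ((d₂₃ A).hom h) = (d₂₃ (coindRep A)).hom (j₂ A s h) := by
  refine funext fun ⟨g₁, g₂, g₃⟩ => coind_ext A fun x => ?_
  show A.ρ (s.r x) (A.ρ (s.rho x g₁) (h (s.rho (x * g₁) g₂, s.rho (x * g₁ * g₂) g₃))
      - h (s.rho x g₁ * s.rho (x * g₁) g₂, s.rho (x * g₁ * g₂) g₃)
      + h (s.rho x g₁, s.rho (x * g₁) g₂ * s.rho (x * g₁ * g₂) g₃)
      - h (s.rho x g₁, s.rho (x * g₁) g₂)) =
    A.ρ (s.r (x * g₁)) (h (s.rho (x * g₁) g₂, s.rho (x * g₁ * g₂) g₃))
      - A.ρ (s.r x) (h (s.rho x (g₁ * g₂), s.rho (x * (g₁ * g₂)) g₃))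
      + A.ρ (s.r x) (h (s.rho x g₁, s.rho (x * g₁) (g₂ * g₃)))
      - A.ρ (s.r x) (h (s.rho x g₁, s.rho (x * g₁) g₂))
  rw [map_sub, map_add, map_sub, ← Module.End.mul_apply, ← map_mul, s.r_mul_rho, ← s.rho_mul,
    ← s.rho_mul, mul_assoc x g₁ g₂]

lemma j₁_mem_cocycles₁ {h : U → A} (hh : h ∈ cocycles₁ A) :
    j₁ A s h ∈ cocycles₁ (coindRep A) := by
  have hh' : (d₁₂ A).hom h = 0 := LinearMap.mem_ker.1 hh
  show (d₁₂ (coindRep A)).hom (j₁ A s h) = 0
  rw [← j₂_d₁₂, hh', map_zero]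

lemma j₂_mem_cocycles₂ {h : U × U → A} (hh : h ∈ cocycles₂ A) :
    j₂ A s h ∈ cocycles₂ (coindRep A) := by
  have hh' : (d₂₃ A).hom h = 0 := LinearMap.mem_ker.1 hh
  show (d₂₃ (coindRep A)).hom (j₂ A s h) = 0
  rw [← j₃_d₂₃, hh', map_zero]

/-! ### The prism homotopy -/

/-- The homotopy in degree `1`: `hot₁ f x = f (t x) (r x)`. -/
def hot₁ : (G → coindRep A) →ₗ[k] coindRep A where
  toFun f := mkCoind A (fun x => (f (s.t x)).1 (s.r x)) (fun u x => by
    rw [s.t_mul, s.r_mul, Subgroup.coe_mul, coind_apply_mul])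
  map_add' _ _ := rfl
  map_smul' _ _ := rfl

/-- The homotopy in degree `2`:
`hot₂ f g x = f (t x, g) (r x) - f (ρ(x, g), t (x g)) (r x)`. -/
def hot₂ : (G × G → coindRep A) →ₗ[k] (G → coindRep A) where
  toFun f g := mkCoind A
    (fun x => (f (s.t x, g)).1 (s.r x) - (f ((s.rho x g : U), s.t (x * g))).1 (s.r x))
    (fun u x => by
      rw [s.t_mul, s.r_mul, Subgroup.coe_mul, coind_apply_mul, s.rho_smul, mul_assoc, s.t_mul,
        coind_apply_mul, map_sub])
  map_add' a b := funext fun g => coind_ext A fun x => by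
    show ((a + b) (s.t x, g)).1 (s.r x) - ((a + b) ((s.rho x g : U), s.t (x * g))).1 (s.r x) =
      ((a (s.t x, g)).1 (s.r x) - (a ((s.rho x g : U), s.t (x * g))).1 (s.r x)) +
      ((b (s.t x, g)).1 (s.r x) - (b ((s.rho x g : U), s.t (x * g))).1 (s.r x))
    rw [Pi.add_apply, Pi.add_apply, coind_add_apply, coind_add_apply]
    abel
  map_smul' c a := funext fun g => coind_ext A fun x => by
    show ((c • a) (s.t x, g)).1 (s.r x) - ((c • a) ((s.rho x g : U), s.t (x * g))).1 (s.r x) =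
      c • ((a (s.t x, g)).1 (s.r x) - (a ((s.rho x g : U), s.t (x * g))).1 (s.r x))
    rw [Pi.smul_apply, Pi.smul_apply, coind_smul_apply, coind_smul_apply, smul_sub]

lemma hot₁_apply (f : G → coindRep A) (x : G) :
    (hot₁ A s f).1 x = (f (s.t x)).1 (s.r x) := rfl

lemma hot₂_apply (f : G × G → coindRep A) (g x : G) :
    (hot₂ A s f g).1 x =
      (f (s.t x, g)).1 (s.r x) - (f ((s.rho x g : U), s.t (x * g))).1 (s.r x) := rfl

/-- Pointwise form of the `1`-cocycle condition in the coinduced module. -/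
lemma cocycle₁_apply {f : G → coindRep A} (hf : f ∈ cocycles₁ (coindRep A)) (a b y : G) :
    (f (a * b)).1 y = (f b).1 (y * a) + (f a).1 y := by
  have h := (mem_cocycles₁_iff f).1 hf a b
  rw [h]; rfl

/-- Pointwise form of the `2`-cocycle condition in the coinduced module. -/
lemma cocycle₂_apply {f : G × G → coindRep A} (hf : f ∈ cocycles₂ (coindRep A)) (a b c y : G) :
    (f (a * b, c)).1 y + (f (a, b)).1 y = (f (b, c)).1 (y * a) + (f (a, b * c)).1 y := by
  have h := (mem_cocycles₂_iff f).1 hf a b c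
  have h' := congrArg (fun φ : coindRep A => φ.1 y) h
  exact h'

/-- Every `1`-cocycle with values in the coinduced module is `j₁ (sh₁ f)` up to the explicit
coboundary of `hot₁ f`. -/
theorem eq_j₁_add {f : G → coindRep A} (hf : f ∈ cocycles₁ (coindRep A)) :
    f = j₁ A s (sh₁ A f) + (d₀₁.{u, u} (coindRep A)).hom (hot₁ A s f) := by
  refine funext fun g => coind_ext A fun x => ?_
  have e1 := cocycle₁_apply A hf (s.t x) g (s.r x)
  have e2 := cocycle₁_apply A hf (s.rho x g) (s.t (x * g)) (s.r x)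
  rw [s.r_mul_t] at e1
  rw [s.rho_mul_t, s.coe_r_mul_rho] at e2
  have e3 : (f (s.rho x g)).1 (s.r x) = A.ρ (s.r x) ((f (s.rho x g)).1 1) := by
    have := coind_apply_mul A (f (s.rho x g)) (s.r x) 1
    rwa [mul_one] at this
  show (f g).1 x = A.ρ (s.r x) ((f (s.rho x g)).1 1)
    + ((f (s.t (x * g))).1 (s.r (x * g)) - (f (s.t x)).1 (s.r x))
  rw [← e3]
  linear_combination (norm := abel) e2 - e1

/-- Every `2`-cocycle with values in the coinduced module is `j₂ (sh₂ f)` up to the explicit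
coboundary of `hot₂ f`. -/
theorem eq_j₂_add {f : G × G → coindRep A} (hf : f ∈ cocycles₂ (coindRep A)) :
    f = j₂ A s (sh₂ A f) + (d₁₂ (coindRep A)).hom (hot₂ A s f) := by
  refine funext fun ⟨g, h⟩ => coind_ext A fun x => ?_
  have e1 := cocycle₂_apply A hf (s.t x) g h (s.r x)
  have e2 := cocycle₂_apply A hf (s.rho x g) (s.t (x * g)) h (s.r x)
  have e3 := cocycle₂_apply A hf (s.rho x g) (s.rho (x * g) h) (s.t (x * g * h)) (s.r x)
  rw [s.r_mul_t] at e1
  rw [s.rho_mul_t, s.coe_r_mul_rho] at e2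
  rw [s.rho_mul_t, s.coe_r_mul_rho, ← Subgroup.coe_mul, ← s.rho_mul] at e3
  have e4 : (f ((s.rho x g : U), (s.rho (x * g) h : U))).1 (s.r x) =
      A.ρ (s.r x) ((f ((s.rho x g : U), (s.rho (x * g) h : U))).1 1) := by
    have := coind_apply_mul A (f ((s.rho x g : U), (s.rho (x * g) h : U))) (s.r x) 1
    rwa [mul_one] at this
  show (f (g, h)).1 x = A.ρ (s.r x) ((f ((s.rho x g : U), (s.rho (x * g) h : U))).1 1)
    + (((f (s.t (x * g), h)).1 (s.r (x * g))
          - (f ((s.rho (x * g) h : U), s.t (x * g * h))).1 (s.r (x * g)))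
        - ((f (s.t x, g * h)).1 (s.r x) - (f ((s.rho x (g * h) : U), s.t (x * (g * h)))).1 (s.r x))
        + ((f (s.t x, g)).1 (s.r x) - (f ((s.rho x g : U), s.t (x * g))).1 (s.r x)))
  rw [← e4, ← mul_assoc x g h]
  linear_combination (norm := abel) e2 - e1 - e3

end Fermat.Agent.CFT.Shapiro
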